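/-
On a finite level the decomposition group is generated by a Frobenius element and inertia.
-/
import Fermat.Agent.EC.Unramified
import Fermat.Agent.Galois.Tame
import Mathlib.FieldTheory.Finite.Basic

set_option autoImplicit false
set_option linter.style.haveILetI false
set_option linter.unusedSectionVars false

noncomputable section

namespace Fermat.Agent.FlatBound

open IsLocalRing NumberField
open Fermat.Agent.Galois (GQ ZBar placeCenter zbarToPlace)
open Fermat.Agent.EC (ringOfIntegersToZBar exists_lift_inertia)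

local notation "ℚb" => AlgebraicClosure ℚ

variable {A : ValuationSubring (AlgebraicClosure ℚ)} {p : ℕ} [Fact p.Prime]

theorem exists_pow_mul_inertia (hA : A.LiesOverPrime p) {φ : GQ} (hφ : A.IsFrobeniusAt φ p)
    (L : IntermediateField ℚ (AlgebraicClosure ℚ)) [FiniteDimensional ℚ L] {σ : GQ}
    (hσ : σ ∈ A.decompositionSubgroup ℚ) :
    ∃ (n : ℕ) (τ : GQ), τ ∈ A.inertiaSubgroupIn ℚ ∧ ∀ x ∈ L, σ x = (φ ^ n * τ) x := by
  classical
  have hp : p.Prime := Fact.out
  haveI : Normal ℚ ℚb := IsGalois.to_normal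
  let F : IntermediateField ℚ ℚb := IntermediateField.normalClosure ℚ L ℚb
  haveI : FiniteDimensional ℚ F := normalClosure.is_finiteDimensional ℚ _ ℚb
  haveI : Normal ℚ F := normalClosure.normal ℚ _ ℚb
  haveI : IsGalois ℚ F := ⟨⟩
  haveI : NumberField F := { }
  set f := ringOfIntegersToZBar F with hf
  let ρ : 𝓞 F →+* ResidueField A := (residue A).comp ((zbarToPlace A).comp f)
  have hρ : ∀ a, ρ a = 0 ↔ f a ∈ placeCenter A := fun a => Galois.residue_zbar_eq_zero_iff A (f a)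
  let P : Ideal (𝓞 F) := RingHom.ker ρ
  haveI hPp : P.IsPrime := RingHom.ker_isPrime ρ
  have hp0 : (p : 𝓞 F) ∈ P := by
    refine (hρ _).mpr ?_
    rw [map_natCast, ← Int.cast_natCast, Galois.intCast_mem_placeCenter hp hA]
  have hPne : P ≠ ⊥ := fun h => by
    rw [h, Ideal.mem_bot, Nat.cast_eq_zero] at hp0
    exact hp.ne_zero hp0
  haveI : Finite (𝓞 F ⧸ P) := Ideal.finiteQuotientOfFreeOfNeBot P hPne
  haveI : P.IsMaximal := hPp.isMaximal hPne
  letI : Field (𝓞 F ⧸ P) := Ideal.Quotient.field _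
  haveI : CharP (𝓞 F ⧸ P) p := (CharP.charP_iff_prime_eq_zero hp).2 (by
    rw [← map_natCast (Ideal.Quotient.mk P), Ideal.Quotient.eq_zero_iff_mem]; exact hp0)
  letI : Algebra (ZMod p) (𝓞 F ⧸ P) := ZMod.algebra _ _
  let ρ' : (𝓞 F ⧸ P) →+* ResidueField A := Ideal.Quotient.lift P ρ fun a ha => ha
  -- the restriction to `F`
  set s : F ≃ₐ[ℚ] F := AlgEquiv.restrictNormalHom F σ with hs
  have hres : ∀ (g : GQ) (hg : g ∈ A.decompositionSubgroup ℚ) (a : 𝓞 F),
      ρ (AlgEquiv.restrictNormalHom F g • a) =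
        (⟨g, hg⟩ : A.decompositionSubgroup ℚ) • ρ a := fun g hg a => by
    show residue A (zbarToPlace A (f (AlgEquiv.restrictNormalHom F g • a))) =
      (⟨g, hg⟩ : A.decompositionSubgroup ℚ) • residue A (zbarToPlace A (f a))
    rw [← ResidueField.residue_smul]
    refine congrArg _ (Subtype.ext ?_)
    exact AlgEquiv.restrictNormal_commutes g F (a : F)
  let T₀ : (𝓞 F ⧸ P) →+* (𝓞 F ⧸ P) :=
    Ideal.quotientMap P (MulSemiringAction.toRingHom (F ≃ₐ[ℚ] F) (𝓞 F) s) fun a ha => by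
      show ρ (s • a) = 0
      rw [hs, hres σ hσ, show ρ a = 0 from ha, smul_zero]
  let T : (𝓞 F ⧸ P) ≃ₐ[ZMod p] (𝓞 F ⧸ P) :=
    AlgEquiv.ofBijective ({ T₀ with
        commutes' := fun r => by
          obtain ⟨n, rfl⟩ := ZMod.intCast_surjective r
          simp } : (𝓞 F ⧸ P) →ₐ[ZMod p] (𝓞 F ⧸ P))
      (Finite.injective_iff_bijective.1 (RingHom.injective T₀))
  obtain ⟨n, hn⟩ := (FiniteField.bijective_frobeniusAlgEquivOfAlgebraic_pow
    (ZMod p) (𝓞 F ⧸ P)).2 T
  obtain ⟨hdec, hfr⟩ := hφ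
  have hpow : ∀ (m : ℕ) (r : ResidueField A),
      (⟨φ, hdec⟩ : A.decompositionSubgroup ℚ) ^ m • r = r ^ p ^ m := fun m r => by
    induction m with
    | zero => simp
    | succ m ih => rw [pow_succ', mul_smul, ih, hfr, ← pow_mul, pow_succ]
  have hT : ∀ a : 𝓞 F, ρ (s • a) = ρ a ^ p ^ (n : ℕ) := fun a => by
    have h := congrArg ρ' (DFunLike.congr_fun hn (Ideal.Quotient.mk P a))
    simp only [AlgEquiv.coe_pow, FiniteField.coe_frobeniusAlgEquivOfAlgebraic_iterate,
      ZMod.card] at h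
    rw [map_pow] at h
    exact h.symm
  set g := (φ ^ (n : ℕ))⁻¹ * σ with hgdef
  have hg : g ∈ A.decompositionSubgroup ℚ := mul_mem (inv_mem (pow_mem hdec _)) hσ
  obtain ⟨τ, hτ, hτg⟩ := exists_lift_inertia F hp hA (AlgEquiv.restrictNormalHom F g) fun a => by
    rw [← map_sub, ← hρ, map_sub, sub_eq_zero, hres g hg]
    have h := hT a
    rw [hs, hres σ hσ, ← hpow] at h
    rw [show (⟨g, hg⟩ : A.decompositionSubgroup ℚ) =
      ((⟨φ, hdec⟩ : A.decompositionSubgroup ℚ) ^ (n : ℕ))⁻¹ * ⟨σ, hσ⟩ from Subtype.ext rfl, mul_smul,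
      h, inv_smul_smul]
  refine ⟨n, τ, hτ, fun x hx => ?_⟩
  have hxF : x ∈ F := IntermediateField.le_normalClosure L hx
  have h1 := AlgEquiv.restrictNormal_commutes τ F ⟨x, hxF⟩
  have h2 := AlgEquiv.restrictNormal_commutes g F ⟨x, hxF⟩
  rw [show AlgEquiv.restrictNormal τ F = AlgEquiv.restrictNormal g F from hτg] at h1
  have h3 : τ x = g x := h1.symm.trans h2
  rw [AlgEquiv.mul_apply, h3, hgdef, AlgEquiv.mul_apply]
  exact ((φ ^ (n : ℕ)).apply_symm_apply (σ x)).symm

end Fermat.Agent.FlatBound
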