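/-
Orbits of algebraic numbers under subgroups, and common fixed vectors of unipotent groups.
-/
import Fermat.Agent.Galois.Tame
import Fermat.Agent.Deform.MatrixRep
import Mathlib.GroupTheory.PGroup

set_option autoImplicit false
set_option linter.style.haveILetI false
set_option linter.unusedSectionVars false

noncomputable section

namespace Fermat.Agent.FlatBound

open Fermat.Agent.Galois (GQ)
open Fermat.Agent.Deform (Mat2)

local notation "ℚb" => AlgebraicClosure ℚ

/-- A prime which is prime to the order of each element acting on an orbit does not divide its size. -/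
theorem exists_orbit (H : Subgroup GQ) (z : ℚb) :
    ∃ O : Finset ℚb, z ∈ O ∧ (∀ y ∈ O, ∃ h ∈ H, h z = y) ∧ (∀ h ∈ H, O.image h = O) ∧
      ∀ q : ℕ, q.Prime → (∀ h ∈ H, ∃ m : ℕ, ¬ q ∣ m ∧ ∀ y ∈ O, (h ^ m) y = y) → ¬ q ∣ O.card := by
  classical
  have hfin : (MulAction.orbit H z).Finite := by
    refine ((minpoly ℚ z).rootSet_finite ℚb).subset ?_
    rintro _ ⟨h, rfl⟩
    rw [Polynomial.mem_rootSet]
    exact ⟨minpoly.ne_zero (Algebra.IsIntegral.isIntegral z), by
      show Polynomial.aeval ((h : GQ).toAlgHom z) (minpoly ℚ z) = 0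
      rw [Polynomial.aeval_algHom_apply, minpoly.aeval, map_zero]⟩
  refine ⟨hfin.toFinset, hfin.mem_toFinset.mpr (MulAction.mem_orbit_self z), fun y hy => ?_,
    fun h hh => ?_, fun q hq hord hdvd => ?_⟩
  · obtain ⟨h, rfl⟩ := hfin.mem_toFinset.mp hy
    exact ⟨h, h.2, rfl⟩
  · refine Finset.eq_of_subset_of_card_le ?_ (le_of_eq (Finset.card_image_of_injective _ h.injective).symm)
    intro y hy
    obtain ⟨w, hw, rfl⟩ := Finset.mem_image.mp hy
    obtain ⟨g, rfl⟩ := hfin.mem_toFinset.mp hw
    exact hfin.mem_toFinset.mpr ⟨⟨h, hh⟩ * g, rfl⟩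
  haveI : Finite (MulAction.orbit H z) := hfin.to_subtype
  set act := MulAction.toPermHom H (MulAction.orbit H z) with hact
  haveI : Finite act.range := inferInstance
  haveI : MulAction.IsPretransitive act.range (MulAction.orbit H z) := by
    refine ⟨fun a b => ?_⟩
    obtain ⟨h, hh⟩ := MulAction.exists_smul_eq H a b
    exact ⟨⟨act h, h, rfl⟩, hh⟩
  have hdvd' : q ∣ Nat.card act.range := by
    have h1 := Subgroup.index_dvd_card
      (MulAction.stabilizer act.range (⟨z, MulAction.mem_orbit_self z⟩ : MulAction.orbit H z))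
    rw [MulAction.index_stabilizer_of_transitive act.range
      (⟨z, MulAction.mem_orbit_self z⟩ : MulAction.orbit H z)] at h1
    exact hdvd.trans (by rwa [← Nat.card_eq_card_finite_toFinset hfin])
  haveI : Fact q.Prime := ⟨hq⟩
  obtain ⟨⟨_, h, rfl⟩, hg⟩ := exists_prime_orderOf_dvd_card' q hdvd'
  obtain ⟨m, hm, hfix⟩ := hord h h.2
  refine hm (hg ▸ orderOf_dvd_of_pow_eq_one (Subtype.ext ?_))
  show act h ^ m = 1
  rw [← map_pow]
  exact Equiv.ext fun a => Subtype.ext (hfix a (hfin.mem_toFinset.mpr a.2))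

variable {k : Type} [Field k] [Finite k] {p : ℕ} [Fact p.Prime] [CharP k p]

theorem mat_pow_char_eq_one {g : Mat2 k} (h : (g - 1) * (g - 1) = 0) : g ^ p = 1 := by
  haveI : CharP (Mat2 k) p := Matrix.charP p
  have h1 : (g - 1) ^ p = g ^ p - 1 ^ p := sub_pow_char_of_commute p (Commute.one_right g)
  obtain ⟨j, hj⟩ : ∃ j, p = 2 + j := ⟨p - 2, by have := (Fact.out : p.Prime).two_le; omega⟩
  rw [one_pow] at h1
  rw [← sub_eq_zero, ← h1, hj, pow_add, sq, h, zero_mul]

theorem mat_sub_one_sq_of_pow {g : Mat2 k} {j : ℕ} (h : g ^ p ^ j = 1) : (g - 1) * (g - 1) = 0 := by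
  haveI : CharP (Mat2 k) p := Matrix.charP p
  have h1 : IsNilpotent (g - 1) :=
    ⟨p ^ j, by rw [sub_pow_char_pow_of_commute p j (Commute.one_right g), one_pow, h, sub_self]⟩
  have h2 := Matrix.isNilpotent_charpoly_sub_pow_of_isNilpotent h1
  have h3 := Matrix.aeval_self_charpoly (g - 1)
  have h4 : (g - 1).charpoly = Polynomial.X ^ 2 := by
    have := sub_eq_zero.mp (IsReduced.eq_zero _ (Matrix.isNilpotent_charpoly_sub_pow_of_isNilpotent h1))
    simpa using this
  rw [h4, map_pow, Polynomial.aeval_X, sq] at h3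
  exact h3

/-- A group of unipotent matrices has a common fixed vector. -/
theorem exists_fixed_vector (p : ℕ) [Fact p.Prime] [CharP k p] (r : GQ →* Mat2 k) (H : Subgroup GQ)
    (hH : ∀ h ∈ H, (r h - 1) * (r h - 1) = 0) :
    ∃ v : Fin 2 → k, v ≠ 0 ∧ ∀ h ∈ H, (r h).mulVec v = v := by
  classical
  let act : H →* Equiv.Perm (Fin 2 → k) :=
    { toFun := fun h =>
        { toFun := fun v => (r h).mulVec v
          invFun := fun v => (r (h : GQ)⁻¹).mulVec v
          left_inv := fun v => by
            show (r _).mulVec ((r _).mulVec v) = v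
            rw [Matrix.mulVec_mulVec, ← map_mul, inv_mul_cancel, map_one, Matrix.one_mulVec]
          right_inv := fun v => by
            show (r _).mulVec ((r _).mulVec v) = v
            rw [Matrix.mulVec_mulVec, ← map_mul, mul_inv_cancel, map_one, Matrix.one_mulVec] }
      map_one' := Equiv.ext fun v => by
        show (r ((1 : H) : GQ)).mulVec v = v
        rw [OneMemClass.coe_one, map_one, Matrix.one_mulVec]
      map_mul' := fun g h => Equiv.ext fun v => by
        show (r ((g * h : H) : GQ)).mulVec v = (r g).mulVec ((r h).mulVec v)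
        rw [Subgroup.coe_mul, map_mul, Matrix.mulVec_mulVec] }
  have hG : IsPGroup p act.range := by
    rintro ⟨_, h, rfl⟩
    refine ⟨1, Subtype.ext ?_⟩
    show act h ^ p ^ 1 = 1
    rw [pow_one, ← map_pow]
    refine Equiv.ext fun v => ?_
    show (r ((h ^ p : H) : GQ)).mulVec v = v
    rw [SubmonoidClass.coe_pow, map_pow, mat_pow_char_eq_one (hH h h.2), Matrix.one_mulVec]
  have hdvd : p ∣ Nat.card (Fin 2 → k) := by
    have h1 : addOrderOf (fun _ : Fin 2 => (1 : k)) = p :=
      addOrderOf_eq_prime (funext fun _ => by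
        rw [Pi.smul_apply, nsmul_one, CharP.cast_eq_zero, Pi.zero_apply])
        fun h => one_ne_zero (congrFun h 0)
    rw [← h1]
    exact addOrderOf_dvd_natCard _
  obtain ⟨v, hv, hv0⟩ := hG.exists_fixed_point_of_prime_dvd_card_of_fixed_point (Fin 2 → k) hdvd
    (a := (0 : Fin 2 → k)) (fun g => by
      obtain ⟨_, h, rfl⟩ := g
      show (r (h : GQ)).mulVec 0 = 0
      exact Matrix.mulVec_zero (r (h : GQ)))
  exact ⟨v, hv0.symm, fun h hh => hv ⟨act ⟨h, hh⟩, ⟨h, hh⟩, rfl⟩⟩

end Fermat.Agent.FlatBound
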