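/-
The inertia elements fixing `π` act unipotently in a two-dimensional representation with
determinant in the prime field.
-/
import Fermat.Agent.FlatBound.Kummer.Base
import Fermat.Agent.FlatBound.Local.Orbit
import Fermat.Agent.Mazur3.Descent.Tame

set_option autoImplicit false
set_option linter.style.haveILetI false
set_option linter.unusedSectionVars false

noncomputable section

namespace Fermat.Agent.FlatBound

open IsLocalRing
open Fermat.Agent.Galois (GQ)
open Fermat.Agent.Deform (Mat2)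

local notation "ℚb" => AlgebraicClosure ℚ

variable {A : ValuationSubring (AlgebraicClosure ℚ)}

/-- The residue of the ratio by which `σ` moves `x`. -/
def tc (A : ValuationSubring (AlgebraicClosure ℚ)) (σ : GQ) (x : AlgebraicClosure ℚ) :
    ResidueField A :=
  res A (σ x / x)

theorem val_ratio {σ : GQ} (hσ : σ ∈ A.decompositionSubgroup ℚ) {x : ℚb} (hx : x ≠ 0) :
    A.valuation (σ x / x) = 1 := by
  rw [map_div₀, Galois.valuation_apply_eq hσ, div_self ((_root_.map_ne_zero _).mpr hx)]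

theorem tc_mul {σ τ : GQ} (hσ : σ ∈ A.inertiaSubgroupIn ℚ) (hτ : τ ∈ A.decompositionSubgroup ℚ)
    {x : ℚb} (hx : x ≠ 0) : tc A (σ * τ) x = tc A σ x * tc A τ x := by
  have hd := inertia_mem_decomposition hσ
  rw [tc, tc, tc, ← res_inertia hσ (val_ratio hτ hx).le,
    ← res_mul (val_ratio hd hx).le (by rw [Galois.valuation_apply_eq hd]; exact (val_ratio hτ hx).le),
    map_div₀, AlgEquiv.mul_apply]
  congr 1
  rw [mul_comm, div_mul_div_cancel₀ ((_root_.map_ne_zero σ).mpr hx)]

theorem tc_one {x : ℚb} (hx : x ≠ 0) : tc A 1 x = 1 := by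
  rw [tc, AlgEquiv.one_apply, div_self hx, res_one]

theorem tc_pow {σ : GQ} (hσ : σ ∈ A.inertiaSubgroupIn ℚ) {x : ℚb} (hx : x ≠ 0) :
    ∀ n : ℕ, tc A (σ ^ n) x = tc A σ x ^ n
  | 0 => by rw [pow_zero, pow_zero, tc_one hx]
  | n + 1 => by
    rw [pow_succ', pow_succ', tc_mul hσ (inertia_mem_decomposition (pow_mem hσ n)) hx, tc_pow hσ hx n]

theorem tc_congr {σ : GQ} (hσ : σ ∈ A.inertiaSubgroupIn ℚ) {x y : ℚb} (hx : x ≠ 0) (hy : y ≠ 0)
    (h : A.valuation x = A.valuation y) : tc A σ x = tc A σ y := by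
  obtain ⟨τ, hτ, rfl⟩ := hσ
  have h1 := Galois.tameChar_congr hτ hx hy h
  rw [Galois.tameChar, Galois.tameChar, ← res_coe, ← res_coe] at h1
  exact h1

theorem tc_pow_arg {σ : GQ} (hσ : σ ∈ A.decompositionSubgroup ℚ) {x : ℚb} (hx : x ≠ 0) (n : ℕ) :
    tc A σ (x ^ n) = tc A σ x ^ n := by
  rw [tc, tc, map_pow, ← div_pow, res_pow (val_ratio hσ hx).le]

variable {p : ℕ} [Fact p.Prime]

theorem tc_conj {φ τ : GQ} (hφ : A.IsFrobeniusAt φ p) (hτ : τ ∈ A.inertiaSubgroupIn ℚ)
    {x : ℚb} (hx : x ≠ 0) : tc A (φ * τ * φ⁻¹) x = tc A τ x ^ p := by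
  obtain ⟨hdec, hfr⟩ := hφ
  have hy : φ⁻¹ x ≠ 0 := (_root_.map_ne_zero _).mpr hx
  rw [← tc_congr hτ hy hx (Galois.valuation_apply_eq (inv_mem hdec) x), tc, tc, ← hfr,
    ← res_apply hdec (val_ratio (inertia_mem_decomposition hτ) hy).le, map_div₀, AlgEquiv.mul_apply,
    AlgEquiv.mul_apply]
  congr 2
  exact (φ.apply_symm_apply x).symm

variable {k : Type} [Field k] [Finite k] [CharP k p]

/-- A two by two matrix with trace and determinant in the prime field is killed by `X ^ (p²) - X` up to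
a square zero error. -/
theorem sq_zero_of_trace (hp2 : p ≠ 2) (g : Mat2 k) (ht : g.trace ^ p = g.trace)
    (hd : g.det ^ p = g.det) : (g ^ (p * p) - g) * (g ^ (p * p) - g) = 0 := by
  haveI : CharP (Mat2 k) p := Matrix.charP p
  have hp : p.Prime := Fact.out
  obtain ⟨m, hm⟩ := hp.odd_of_ne_two hp2
  set t := g.trace
  set d := g.det
  have hCH : g * g = t • g - d • (1 : Mat2 k) := by
    have h := Matrix.aeval_self_charpoly g
    rw [Matrix.charpoly_fin_two] at h
    simp only [map_add, map_sub, map_pow, map_mul, Polynomial.aeval_X, Polynomial.aeval_C,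
      Algebra.algebraMap_eq_smul_one, smul_mul_assoc, one_mul] at h
    rw [← sq, eq_sub_iff_add_eq, ← sub_eq_zero]
    rw [← h]
    abel
  set s := (2 : k) • g - t • (1 : Mat2 k) with hs
  have hss : s * s = (t * t - 4 * d) • (1 : Mat2 k) := by
    simp only [hs, sub_mul, mul_sub, smul_mul_assoc, mul_smul_comm, one_mul, mul_one, smul_smul, hCH,
      smul_sub]
    module
  set Δ := t * t - 4 * d
  have hcast : ∀ n : ℕ, ((n : k)) ^ p = n := fun n => by
    rw [← frobenius_def p, map_natCast]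
  have hΔ : Δ ^ p = Δ := by
    simp only [Δ, sub_pow_char, mul_pow, ht, hd]
    rw [show (4 : k) = ((4 : ℕ) : k) by norm_num, hcast]
  have hspow : ∀ j : ℕ, s ^ (2 * j + 1) = Δ ^ j • s := fun j => by
    induction j with
    | zero => simp
    | succ j ih =>
      rw [show 2 * (j + 1) + 1 = (2 * j + 1) + 2 by ring, pow_add, ih, sq, hss, smul_mul_assoc,
        mul_smul_comm, mul_one, smul_smul, pow_succ]
  set χ := Δ ^ m
  have hχ : χ ^ p = χ := by rw [← pow_mul, mul_comm, pow_mul, hΔ]
  have hsp : s ^ p = χ • s := by rw [hm]; exact hspow m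
  have h2 : ((2 : k)) ^ p = 2 := by
    have := hcast 2
    simpa using this
  have hp1 : ((2 : k) • g) ^ p = s ^ p + t • (1 : Mat2 k) := by
    have hcomm : Commute s (t • (1 : Mat2 k)) := (Commute.one_right s).smul_right t
    rw [show (2 : k) • g = s + t • (1 : Mat2 k) by rw [hs, sub_add_cancel],
      add_pow_char_of_commute p hcomm, smul_pow, one_pow, ht]
  rw [smul_pow, h2, hsp] at hp1
  have hp2' : (2 : k) • g ^ (p * p) = (χ * χ) • s + t • (1 : Mat2 k) := by
    have hcomm : Commute (χ • s) (t • (1 : Mat2 k)) := (Commute.one_right _).smul_right t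
    have h := congrArg (· ^ p) hp1
    simp only [smul_pow, h2, ← pow_mul] at h
    rw [add_pow_char_of_commute p hcomm, smul_pow, smul_pow, one_pow, ht, hχ, hsp, smul_smul] at h
    exact h
  have hN : (2 : k) • (g ^ (p * p) - g) = (χ * χ - 1) • s := by
    rw [smul_sub, hp2', sub_smul, one_smul, hs]
    abel
  have h20 : (2 : k) ≠ 0 := by
    intro h
    have h' : ((2 : ℕ) : k) = 0 := by simpa using h
    rw [CharP.cast_eq_zero_iff k p] at h'
    exact hp2 ((Nat.prime_dvd_prime_iff_eq hp Nat.prime_two).mp h')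
  have hzero : (χ * χ - 1) * (χ * χ - 1) * Δ = 0 := by
    rcases eq_or_ne Δ 0 with h0 | h0
    · rw [h0, mul_zero]
    · have h1 : χ * χ = 1 := by
        refine mul_right_cancel₀ h0 ?_
        rw [one_mul]
        simp only [χ]
        rw [← pow_add, ← pow_succ, show m + m + 1 = p by omega, hΔ]
      rw [h1, sub_self, mul_zero, zero_mul]
  have h4 : ((2 : k) • (g ^ (p * p) - g)) * ((2 : k) • (g ^ (p * p) - g)) = 0 := by
    rw [hN, smul_mul_assoc, mul_smul_comm, smul_smul, hss, smul_smul, hzero, zero_smul]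
  rw [smul_mul_assoc, mul_smul_comm, smul_smul] at h4
  exact (smul_eq_zero.mp h4).resolve_left (mul_ne_zero h20 h20)

theorem mat_trace_pow_char (hp2 : p ≠ 2) (g : Mat2 k) : (g ^ p).trace = g.trace ^ p := by
  haveI : CharP (Mat2 k) p := Matrix.charP p
  obtain ⟨m, hm⟩ := (Fact.out : p.Prime).odd_of_ne_two hp2
  set s := (2 : k) • g - g.trace • (1 : Mat2 k) with hs
  have hts : s.trace = 0 := by
    rw [hs, Matrix.trace_sub, Matrix.trace_smul, Matrix.trace_smul, Matrix.trace_one, Fintype.card_fin]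
    simp
    ring
  have hss : ∃ c : k, s * s = c • (1 : Mat2 k) := by
    refine ⟨-s.det, ?_⟩
    ext i j
    have h : s 0 0 + s 1 1 = 0 := by rw [← Matrix.trace_fin_two]; exact hts
    fin_cases i <;> fin_cases j <;>
      simp [Matrix.mul_apply, Matrix.det_fin_two, Fin.sum_univ_two, Matrix.one_apply]
    · linear_combination (s 0 0) * h
    · linear_combination (s 0 1) * h
    · linear_combination (s 1 0) * h
    · linear_combination (s 1 1) * h
  obtain ⟨c, hc⟩ := hss
  have hsp : s ^ p = c ^ m • s := by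
    rw [hm, pow_succ, pow_mul, sq, hc, smul_pow, one_pow, smul_mul_assoc, one_mul]
  have hcomm : Commute s (g.trace • (1 : Mat2 k)) := (Commute.one_right s).smul_right g.trace
  have h := congrArg (fun M => Matrix.trace (M ^ p))
    (show (2 : k) • g = s + g.trace • (1 : Mat2 k) by rw [hs, sub_add_cancel])
  simp only [add_pow_char_of_commute p hcomm, smul_pow, one_pow, hsp, Matrix.trace_add,
    Matrix.trace_smul, hts, Matrix.trace_one, Fintype.card_fin, smul_eq_mul, mul_zero, zero_add] at h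
  have h2 : (2 : k) ^ p = 2 := by
    rw [← frobenius_def p, map_ofNat]
  have h20 : (2 : k) ≠ 0 := by
    intro h0
    have h' : ((2 : ℕ) : k) = 0 := by simpa using h0
    rw [CharP.cast_eq_zero_iff k p] at h'
    exact hp2 ((Nat.prime_dvd_prime_iff_eq (Fact.out : p.Prime) Nat.prime_two).mp h')
  rw [h2, Nat.cast_two, mul_comm (g.trace ^ p)] at h
  exact mul_left_cancel₀ h20 h

/-- Multiplying by an element of a unipotent group normalised by `g` does not change the trace. -/
theorem trace_mul_unipotent (p : ℕ) [Fact p.Prime] [CharP k p] (r : GQ →* Mat2 k) (H : Subgroup GQ)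
    (hH : ∀ h ∈ H, (r h - 1) * (r h - 1) = 0) {g u : GQ} (hg : ∀ h ∈ H, g⁻¹ * h * g ∈ H)
    (hu : u ∈ H) : (r (g * u)).trace = (r g).trace := by
  obtain ⟨v, hv0, hv⟩ := exists_fixed_vector p r H hH
  rw [map_mul]
  set w := (r g).mulVec v with hw
  have hwfix : (r u).mulVec v = v := hv u hu
  have hgfix : ∀ h ∈ H, (r h).mulVec w = w := fun h hh => by
    have h1 := hv _ (hg h hh)
    rw [hw]
    conv_rhs => rw [← h1, Matrix.mulVec_mulVec, ← map_mul, mul_assoc, mul_inv_cancel_left]
    rw [Matrix.mulVec_mulVec, ← map_mul]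
  -- in the span of `v` and its translate
  set U := r u with hU
  set G := r g with hG
  have hU1 : (U - 1) * (U - 1) = 0 := hH u hu
  have hUw : (U - 1).mulVec w = 0 := by rw [Matrix.sub_mulVec, hgfix u hu, Matrix.one_mulVec, sub_self]
  have hUv : (U - 1).mulVec v = 0 := by rw [Matrix.sub_mulVec, hwfix, Matrix.one_mulVec, sub_self]
  have key : (G * (U - 1)).trace = 0 := by
    set N := U - 1
    have hN0 : ∀ i, N i 0 * v 0 + N i 1 * v 1 = 0 := fun i => by
      simpa [Matrix.mulVec, dotProduct, Fin.sum_univ_two] using congrFun hUv i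
    have hNw : ∀ i, N i 0 * w 0 + N i 1 * w 1 = 0 := fun i => by
      simpa [Matrix.mulVec, dotProduct, Fin.sum_univ_two] using congrFun hUw i
    by_cases hdep : v 0 * w 1 - v 1 * w 0 = 0
    · -- `v` is an eigenvector of `G`
      have hsq : ∀ i j, N i 0 * N 0 j + N i 1 * N 1 j = 0 := fun i j => by
        simpa [Matrix.mul_apply, Fin.sum_univ_two] using congrFun (congrFun hU1 i) j
      have hw0 : w 0 = G 0 0 * v 0 + G 0 1 * v 1 := by
        simp [hw, hG, Matrix.mulVec, dotProduct, Fin.sum_univ_two]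
      have hw1 : w 1 = G 1 0 * v 0 + G 1 1 * v 1 := by
        simp [hw, hG, Matrix.mulVec, dotProduct, Fin.sum_univ_two]
      have htrN : N 0 0 + N 1 1 = 0 := by
        have := hsq 0 0
        have := hsq 1 1
        have hdet : (N 0 0 + N 1 1) ^ 2 = 0 := by
          have a := hsq 0 0
          have b := hsq 1 1
          have c := hsq 0 1
          have d := hsq 1 0
          have hv' : v 0 ≠ 0 ∨ v 1 ≠ 0 := by
            by_contra hc
            push Not at hc
            exact hv0 (funext fun i => by fin_cases i <;> simp [hc.1, hc.2])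
          have hdetN : N 0 0 * N 1 1 - N 0 1 * N 1 0 = 0 := by
            rcases hv' with h | h
            · exact (mul_eq_zero.mp (by linear_combination N 1 1 * hN0 0 - N 0 1 * hN0 1 :
                (N 0 0 * N 1 1 - N 0 1 * N 1 0) * v 0 = 0)).resolve_right h
            · exact (mul_eq_zero.mp (by linear_combination N 0 0 * hN0 1 - N 1 0 * hN0 0 :
                (N 0 0 * N 1 1 - N 0 1 * N 1 0) * v 1 = 0)).resolve_right h
          linear_combination a + b + 2 * hdetN
        exact pow_eq_zero_iff two_ne_zero |>.mp hdet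
      simp only [Matrix.trace_fin_two, Matrix.mul_apply, Fin.sum_univ_two]
      rw [hw0, hw1] at hdep
      by_cases h : v 0 = 0
      · have h1 : v 1 ≠ 0 := fun h1 => hv0 (funext fun i => by fin_cases i <;> simp [h, h1])
        have e1 : ∀ i, N i 1 = 0 := fun i => (mul_eq_zero.mp (by
          have := hN0 i; rw [h, mul_zero, zero_add] at this; exact this)).resolve_right h1
        have e2 : G 0 1 = 0 := by
          rw [h] at hdep
          have : G 0 1 * (v 1 * v 1) = 0 := by linear_combination -hdep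
          exact (mul_eq_zero.mp this).resolve_right (mul_ne_zero h1 h1)
        rw [e1, e2, e1] at *
        have e3 : N 0 0 = 0 := by simpa using htrN
        rw [e3]
        ring
      · have e1 : ∀ i, N i 0 = -(N i 1 * (v 1 / v 0)) := fun i => by
          field_simp
          linear_combination hN0 i
        have e3 : N 1 1 = N 0 1 * (v 1 / v 0) := by
          have := htrN
          rw [e1] at this
          linear_combination this
        have e4 : G 1 0 = (v 1 / v 0) * (G 0 0 + G 0 1 * (v 1 / v 0) - G 1 1) := by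
          field_simp
          linear_combination hdep
        rw [e1 0, e1 1, e3, e4]
        ring
    · have hN00 : ∀ i, N i 0 = 0 ∧ N i 1 = 0 := fun i => by
        constructor
        · refine (mul_eq_zero.mp ?_).resolve_right hdep
          linear_combination w 1 * hN0 i - v 1 * hNw i
        · refine (mul_eq_zero.mp ?_).resolve_right hdep
          linear_combination v 0 * hNw i - w 0 * hN0 i
      have hNz : N = 0 := by
        ext i j
        fin_cases j
        · exact (hN00 i).1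
        · exact (hN00 i).2
      rw [hNz, mul_zero, Matrix.trace_zero]
  rw [mul_sub, mul_one, Matrix.trace_sub, sub_eq_zero] at key
  exact key

variable (S : Setting A p) {r : GQ →* Mat2 k}

theorem W_unipotent (hopen : ∃ L : IntermediateField ℚ ℚb, FiniteDimensional ℚ L ∧
      ∀ σ : GQ, (∀ x ∈ L, σ x = x) → r σ = 1)
    (hdet : ∀ σ ∈ A.inertiaSubgroupIn ℚ, (r σ).det ^ p = (r σ).det) {w : GQ} (hw : w ∈ S.W) :
    (r w - 1) * (r w - 1) = 0 := by
  classical
  have hp : p.Prime := Fact.out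
  have hp2 : p ≠ 2 := by have := S.hp3; omega
  haveI : CharP (ResidueField A) p := charP_residue S.hA
  obtain ⟨L, hLfin, hL⟩ := hopen
  let ker : Subgroup GQ := r.ker
  have hle : L.fixingSubgroup ≤ r.ker := fun σ hσ =>
    MonoidHom.mem_ker.2 (hL σ ((IntermediateField.mem_fixingSubgroup_iff _ _).1 hσ))
  have hopenK : IsOpen (r.ker : Set GQ) :=
    Subgroup.isOpen_mono hle (IntermediateField.fixingSubgroup_isOpen L)
  set F := IntermediateField.fixedField r.ker with hF
  have hFH : F.fixingSubgroup = r.ker :=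
    InfiniteGalois.fixingSubgroup_fixedField ⟨r.ker, Subgroup.isClosed_of_isOpen _ hopenK⟩
  haveI : IsGalois ℚ F := (InfiniteGalois.normal_iff_isGalois F).1
    (by rw [hFH]; infer_instance)
  haveI : FiniteDimensional ℚ F := (InfiniteGalois.isOpen_iff_finite F).1
    (by rw [hFH]; exact hopenK)
  have hfix : ∀ σ : GQ, (∀ x ∈ F, σ x = x) ↔ r σ = 1 := fun σ => by
    rw [← IntermediateField.mem_fixingSubgroup_iff, hFH, MonoidHom.mem_ker]
  have hIinv : ∀ {a : GQ}, a ∈ A.inertiaSubgroupIn ℚ → a ∈ A.decompositionSubgroup ℚ :=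
    inertia_mem_decomposition
  -- the elements of tame character one
  let P : Subgroup GQ :=
    { carrier := {σ | σ ∈ A.inertiaSubgroupIn ℚ ∧ ∀ x ∈ F, x ≠ 0 → tc A σ x = 1}
      one_mem' := ⟨one_mem _, fun x _ hx => tc_one hx⟩
      mul_mem' := fun {a b} ha hb => ⟨mul_mem ha.1 hb.1, fun x hxF hx => by
        rw [tc_mul ha.1 (hIinv hb.1) hx, ha.2 x hxF hx, hb.2 x hxF hx, one_mul]⟩
      inv_mem' := fun {a} ha => ⟨inv_mem ha.1, fun x hxF hx => by
        have h := tc_mul ha.1 (hIinv (inv_mem ha.1)) hx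
        rw [mul_inv_cancel, tc_one hx, ha.2 x hxF hx, one_mul] at h
        exact h.symm⟩ }
  have hmemP : ∀ σ, σ ∈ P ↔ σ ∈ A.inertiaSubgroupIn ℚ ∧ ∀ x ∈ F, x ≠ 0 → tc A σ x = 1 :=
    fun σ => Iff.rfl
  have hPpow : ∀ σ ∈ P, ∃ j, r σ ^ p ^ j = 1 ∧ ∀ x ∈ F, (σ ^ p ^ j) x = x := fun σ hσ => by
    obtain ⟨⟨⟨s, hsD⟩, hs, rfl⟩, h1⟩ := hσ
    obtain ⟨j, hj⟩ := Mazur3.exists_pow_fix_of_tameChar_eq_one_on hp S.hA hs F fun x hx hxF => by
      rw [Galois.tameChar, ← res_coe]
      exact h1 x hxF hx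
    refine ⟨j, ?_, hj⟩
    rw [← map_pow]
    exact (hfix _).mp hj
  have hPu : ∀ σ ∈ P, (r σ - 1) * (r σ - 1) = 0 := fun σ hσ => by
    obtain ⟨j, hj, -⟩ := hPpow σ hσ
    exact mat_sub_one_sq_of_pow hj
  have hPconj : ∀ g ∈ A.inertiaSubgroupIn ℚ, ∀ h ∈ P, g⁻¹ * h * g ∈ P := by
    intro g hg h hh
    refine ⟨mul_mem (mul_mem (inv_mem hg) hh.1) hg, fun x hxF hx => ?_⟩
    rw [tc_mul (mul_mem (inv_mem hg) hh.1) (hIinv hg) hx, tc_mul (inv_mem hg) (hIinv hh.1) hx,
      hh.2 x hxF hx, mul_one, ← tc_mul (inv_mem hg) (hIinv hg) hx, inv_mul_cancel, tc_one hx]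
  -- the trace is in the prime field
  have htr : ∀ σ ∈ A.inertiaSubgroupIn ℚ, (r σ).trace ^ p = (r σ).trace := by
    intro σ hσ
    have hσp : σ ^ p ∈ A.inertiaSubgroupIn ℚ := pow_mem hσ p
    set c := S.frob * σ * S.frob⁻¹ with hc
    have hcI : c ∈ A.inertiaSubgroupIn ℚ := conj_mem_inertia S.frob_dec hσ
    have hu : (σ ^ p)⁻¹ * c ∈ P := ⟨mul_mem (inv_mem hσp) hcI, fun x hxF hx => by
      rw [tc_mul (inv_mem hσp) (hIinv hcI) hx, hc, tc_conj S.hfrob hσ hx, ← tc_pow hσ hx,
        ← tc_mul (inv_mem hσp) (hIinv hσp) hx, inv_mul_cancel, tc_one hx]⟩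
    have h1 := trace_mul_unipotent p r P hPu (hPconj _ hσp) hu
    rw [mul_inv_cancel_left, hc, map_mul, map_mul, Matrix.trace_mul_cycle, ← map_mul, ← map_mul,
      inv_mul_cancel, one_mul, map_pow, mat_trace_pow_char hp2] at h1
    exact h1.symm
  have hexp : ∀ σ ∈ A.inertiaSubgroupIn ℚ, σ ^ tdeg p ∈ P := by
    intro σ hσ
    refine ⟨pow_mem hσ _, ?_⟩
    have h := sq_zero_of_trace hp2 (r σ) (htr σ hσ) (hdet σ hσ)
    rw [← tdeg_add_one hp.one_lt.le] at h
    have h2 : (r (σ ^ tdeg p) - 1) * (r (σ ^ tdeg p) - 1) = 0 := by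
      have hinv : r σ * r σ⁻¹ = 1 := by rw [← map_mul, mul_inv_cancel, map_one]
      have h3 : r σ ^ (tdeg p + 1) - r σ = (r σ ^ tdeg p - 1) * r σ := by
        rw [sub_mul, one_mul, pow_succ]
      have hcomm : r σ * (r σ ^ tdeg p - 1) = (r σ ^ tdeg p - 1) * r σ :=
        (((Commute.refl (r σ)).pow_right _).sub_right (Commute.one_right _)).eq
      rw [h3, mul_assoc, ← mul_assoc (r σ), hcomm] at h
      have h4 := congrArg (fun M => M * r σ⁻¹ * r σ⁻¹) h
      simp only [zero_mul, mul_assoc, hinv, mul_one] at h4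
      rw [map_pow]
      simpa [mul_assoc, hinv] using h4
    intro x hxF hx
    have h5 : r ((σ ^ tdeg p) ^ p) = 1 := by rw [map_pow, mat_pow_char_eq_one h2]
    have h6 : tc A ((σ ^ tdeg p) ^ p) x = 1 := by
      rw [tc, (hfix _).mpr h5 x hxF, div_self hx, res_one]
    rw [tc_pow (pow_mem hσ _) hx] at h6
    exact frobenius_inj (ResidueField A) p (by rw [frobenius_def, frobenius_def, h6, one_pow])
  suffices hwP : w ∈ P from hPu w hwP
  refine ⟨hw.1, fun x hxF hx => ?_⟩
  -- a number fixed by `P` with the valuation of a power of `x`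
  obtain ⟨O, hxO, hOmem, hOimg, hOcard⟩ := exists_orbit P x
  have hOF : ∀ y ∈ O, y ∈ F := fun y hy => by
    obtain ⟨h, -, rfl⟩ := hOmem y hy
    exact Mazur3.apply_mem_level F h hxF
  have hOp : ∀ q : ℕ, q.Prime → q ∣ O.card → q = p := fun q hq hdvd => by
    by_contra hne
    refine hOcard q hq (fun h hh => ?_) hdvd
    obtain ⟨j, -, hj⟩ := hPpow h hh
    exact ⟨p ^ j, fun hd => hne ((Nat.prime_dvd_prime_iff_eq hq hp).mp (hq.dvd_of_dvd_pow hd)),
      fun y hy => hj y (hOF y hy)⟩
  have hOpos : O.card ≠ 0 := Finset.card_ne_zero_of_mem hxO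
  obtain ⟨a, ha⟩ : ∃ a, O.card = p ^ a :=
    ⟨_, Nat.eq_prime_pow_of_unique_prime_dvd hOpos fun {d} hd hdd => hOp d hd hdd⟩
  set z := ∏ y ∈ O, y with hz
  have hzF : z ∈ F := prod_mem hOF
  have hOv : ∀ y ∈ O, A.valuation y = A.valuation x := fun y hy => by
    obtain ⟨h, hh, rfl⟩ := hOmem y hy
    exact Galois.valuation_apply_eq (hIinv hh.1) x
  have hz0 : z ≠ 0 := Finset.prod_ne_zero_iff.mpr fun y hy h0 => by
    have := hOv y hy
    rw [h0, map_zero, eq_comm, _root_.map_eq_zero] at this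
    exact hx this
  have hzfix : ∀ h ∈ P, h z = z := fun h hh => by
    rw [hz, map_prod]
    conv_rhs => rw [← hOimg h hh, Finset.prod_image h.injective.injOn]
  obtain ⟨O', hzO', hO'mem, hO'img, hO'card⟩ := exists_orbit (A.inertiaSubgroupIn ℚ) z
  have hO'fix : ∀ h ∈ P, ∀ y ∈ O', h y = y := fun h hh y hy => by
    obtain ⟨g, hg, rfl⟩ := hO'mem y hy
    have := hzfix _ (hPconj g hg h hh)
    rw [AlgEquiv.mul_apply, AlgEquiv.mul_apply] at this
    conv_rhs => rw [← this]
    exact (g.apply_symm_apply _).symm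
  have hpd : ¬ p ∣ O'.card := hO'card p hp fun h hh =>
    ⟨tdeg p, not_dvd_tdeg hp, fun y hy => hO'fix _ (hexp h hh) y hy⟩
  -- average the `p²-1`-st powers
  set u := z ^ tdeg p
  set Z := ∑ y ∈ O', y ^ tdeg p with hZ
  have hres : ∀ y ∈ O', res A (y ^ tdeg p / u) = 1 := fun y hy => by
    obtain ⟨g, hg, rfl⟩ := hO'mem y hy
    show res A (g z ^ tdeg p / z ^ tdeg p) = 1
    rw [← div_pow, res_pow (val_ratio (hIinv hg) hz0).le]
    have h1 := (hexp g hg).2 z hzF hz0
    rw [tc_pow hg hz0] at h1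
    exact h1
  have hZv : A.valuation Z = A.valuation u := by
    have hu0 : u ≠ 0 := pow_ne_zero _ hz0
    have hle : ∀ y ∈ O', A.valuation (y ^ tdeg p / u) ≤ 1 := fun y hy => by
      obtain ⟨g, hg, rfl⟩ := hO'mem y hy
      rw [← div_pow, map_pow, val_ratio (hIinv hg) hz0, one_pow]
    have hsum : A.valuation (∑ y ∈ O', y ^ tdeg p / u) ≤ 1 := A.valuation.map_sum_le hle
    have hne : res A (∑ y ∈ O', y ^ tdeg p / u) ≠ 0 := by
      have : res A (∑ y ∈ O', y ^ tdeg p / u) = O'.card := by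
        clear hpd hsum hO'card hO'img hzO' hZ hO'fix hO'mem
        induction O' using Finset.induction_on with
        | empty => simpa using res_zero (A := A)
        | insert b s hb ih =>
          rw [Finset.sum_insert hb, res_add (hle b (Finset.mem_insert_self b s))
            (A.valuation.map_sum_le fun y hy => hle y (Finset.mem_insert_of_mem hy)),
            hres b (Finset.mem_insert_self b s),
            ih (fun y hy => hres y (Finset.mem_insert_of_mem hy))
              (fun y hy => hle y (Finset.mem_insert_of_mem hy)),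
            Finset.card_insert_of_notMem hb, Nat.cast_succ, add_comm]
      rw [this, Ne, CharP.cast_eq_zero_iff (ResidueField A) p]
      exact hpd
    have h1 : A.valuation (∑ y ∈ O', y ^ tdeg p / u) = 1 :=
      le_antisymm hsum (not_lt.mp fun h => hne ((res_eq_zero_iff hsum).mpr h))
    rwa [← Finset.sum_div, map_div₀, div_eq_one_iff_eq ((_root_.map_ne_zero _).mpr hu0)] at h1
  have hZ0 : Z ≠ 0 := fun h => by
    rw [h, map_zero, eq_comm, _root_.map_eq_zero] at hZv
    exact pow_ne_zero _ hz0 hZv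
  have hZfix : ∀ σ ∈ A.inertiaSubgroupIn ℚ, σ Z = Z := fun σ hσ => by
    rw [hZ, map_sum]
    conv_rhs => rw [← hO'img σ hσ, Finset.sum_image σ.injective.injOn]
    simp only [map_pow]
  obtain ⟨n, hn⟩ := NewVec.exists_val_eq_zpow_of_fixed hp S.hA hZfix hZ0
  have hzv : A.valuation z = A.valuation S.pi ^ n := by
    rw [hZv, map_pow, ← S.val_pi_pow, ← zpow_natCast _ (tdeg p), ← zpow_natCast _ (tdeg p), ← zpow_mul,
      mul_comm, zpow_mul, zpow_natCast, zpow_natCast] at hn
    exact (pow_left_inj₀ zero_le zero_le S.tdeg_pos.ne').mp hn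
  have h1 : tc A w z = 1 := by
    rw [tc_congr hw.1 hz0 (zpow_ne_zero n S.pi_ne_zero) (by rw [hzv, map_zpow₀]), tc, map_zpow₀,
      (S.mem_W.mp hw).2, div_self (zpow_ne_zero n S.pi_ne_zero), res_one]
  have h2 : tc A w z = tc A w x ^ O.card := by
    rw [tc_congr hw.1 hz0 (pow_ne_zero O.card hx) (by
      rw [hz, map_prod, Finset.prod_congr rfl hOv, Finset.prod_const, map_pow]),
      tc_pow_arg (hIinv hw.1) hx]
  rw [h1, ha] at h2
  refine iterateFrobenius_inj (ResidueField A) p a ?_
  rw [iterateFrobenius_def, iterateFrobenius_def, ← h2, one_pow]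

end Fermat.Agent.FlatBound
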