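/-
Saturated subspaces have integral retractions; the lattice of a quotient.
-/
import Fermat.Agent.FlatBound.Ram.Chart

set_option autoImplicit false
set_option linter.style.haveILetI false
set_option linter.unusedSectionVars false

noncomputable section

namespace Fermat.Agent.FlatBound

open Fermat.Agent.Galois (GQ)

local notation "ℚb" => AlgebraicClosure ℚ

variable {A : ValuationSubring (AlgebraicClosure ℚ)}

/-- A subspace stable under a group of automorphisms has an equivariant projection preserving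
integral vectors. -/
theorem exists_integral_proj {ι : Type} [Fintype ι] (Γ : Subgroup GQ) :
    ∀ (n : ℕ) (s : Finset ι), s.card ≤ n → ∀ V : Submodule ℚb (ι → ℚb),
      (∀ f ∈ V, ∀ i ∉ s, f i = 0) → (∀ σ ∈ Γ, ∀ f ∈ V, (fun i => σ (f i)) ∈ V) →
      ∃ R : (ι → ℚb) →ₗ[ℚb] (ι → ℚb), (∀ f, R f ∈ V) ∧ (∀ f ∈ V, R f = f) ∧
        (∀ f, (∀ i, f i ∈ A) → ∀ i, R f i ∈ A) ∧
        ∀ σ ∈ Γ, ∀ f i, σ (R f i) = R (fun j => σ (f j)) i := by
  classical
  intro n
  induction n with
  | zero =>
    intro s hs V hsupp _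
    refine ⟨0, fun f => zero_mem V, fun f hf => ?_, fun f _ i => zero_mem A, fun σ _ f i => map_zero σ⟩
    funext i
    rw [LinearMap.zero_apply, Pi.zero_apply,
      hsupp f hf i (by rw [Finset.card_eq_zero.mp (Nat.le_zero.mp hs)]; exact Finset.notMem_empty i)]
  | succ n ih =>
    intro s hs V hsupp hstab
    by_cases hV : ∀ f ∈ V, f = 0
    · exact ⟨0, fun f => zero_mem V, fun f hf => by rw [LinearMap.zero_apply, hV f hf],
        fun f _ i => zero_mem A, fun σ _ f i => map_zero σ⟩
    push Not at hV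
    -- a vector of smallest support
    have hex : ∃ m, ∃ f ∈ V, f ≠ 0 ∧ (Finset.univ.filter fun i => f i ≠ 0).card = m :=
      let ⟨f, hf, hf0⟩ := hV; ⟨_, f, hf, hf0, rfl⟩
    obtain ⟨f₀, hf₀, hf₀0, hcard⟩ := Nat.find_spec hex
    obtain ⟨j, -, hmax⟩ := Finset.univ.exists_max_image (fun i => A.valuation (f₀ i))
      (by obtain ⟨i, -⟩ := Function.ne_iff.mp hf₀0; exact ⟨i, Finset.mem_univ i⟩)
    have hj0 : f₀ j ≠ 0 := fun h0 => by
      obtain ⟨i, hi⟩ := Function.ne_iff.mp hf₀0
      have := hmax i (Finset.mem_univ i)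
      rw [h0, map_zero, le_zero_iff, _root_.map_eq_zero] at this
      exact hi this
    set v : ι → ℚb := (f₀ j)⁻¹ • f₀ with hv
    have hvV : v ∈ V := V.smul_mem _ hf₀
    have hvj : v j = 1 := by simp [hv, hj0]
    have hvA : ∀ i, v i ∈ A := fun i => (A.valuation_le_one_iff _).mp (by
      rw [hv, Pi.smul_apply, smul_eq_mul, map_mul, map_inv₀]
      exact (inv_mul_le_one₀ (zero_lt_iff.mpr ((_root_.map_ne_zero _).mpr hj0))).mpr
        (hmax i (Finset.mem_univ i)))
    have hvfix : ∀ σ ∈ Γ, ∀ i, σ (v i) = v i := by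
      intro σ hσ i
      set d : ι → ℚb := fun i => σ (v i) - v i with hd
      have hdV : d ∈ V := V.sub_mem (hstab σ hσ v hvV) hvV
      have hd0 : d = 0 := by
        by_contra hne
        have hlt : (Finset.univ.filter fun i => d i ≠ 0).card < Nat.find hex := by
          rw [← hcard]
          refine Finset.card_lt_card ⟨fun i hi => ?_, fun hsub => ?_⟩
          · rw [Finset.mem_filter] at hi ⊢
            refine ⟨Finset.mem_univ i, fun h0 => hi.2 ?_⟩
            simp [hd, hv, h0]
          · have := hsub (Finset.mem_filter.mpr ⟨Finset.mem_univ j, hj0⟩)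
            rw [Finset.mem_filter] at this
            exact this.2 (by simp [hd, hvj])
        exact Nat.find_min hex hlt ⟨d, hdV, hne, rfl⟩
      exact sub_eq_zero.mp (congrFun hd0 i)
    have hjs : j ∈ s := by_contra fun h => hj0 (hsupp f₀ hf₀ j h)
    let π : (ι → ℚb) →ₗ[ℚb] (ι → ℚb) :=
      LinearMap.id - (LinearMap.proj j).smulRight v
    have hπ : ∀ f i, π f i = f i - f j * v i := fun f i => rfl
    let V' : Submodule ℚb (ι → ℚb) := V ⊓ LinearMap.ker (LinearMap.proj j)
    obtain ⟨R', hR'mem, hR'id, hR'int, hR'eq⟩ := ih (s.erase j)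
      (by rw [Finset.card_erase_of_mem hjs]; omega) V' (fun f hf i hi => by
        by_cases hij : i = j
        · subst hij; exact hf.2
        · exact hsupp f hf.1 i fun h => hi (Finset.mem_erase.mpr ⟨hij, h⟩))
      (fun σ hσ f hf => ⟨hstab σ hσ f hf.1, by
        show σ (f j) = 0
        rw [show f j = 0 from hf.2, map_zero]⟩)
    refine ⟨(LinearMap.proj j).smulRight v + R'.comp π, fun f => ?_, fun f hf => ?_, fun f hf i => ?_,
      fun σ hσ f i => ?_⟩
    · exact V.add_mem (V.smul_mem _ hvV) (hR'mem _).1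
    · have hmem : π f ∈ V' := ⟨V.sub_mem hf (V.smul_mem _ hvV), by
        show π f j = 0
        rw [hπ, hvj, mul_one, sub_self]⟩
      show f j • v + R' (π f) = f
      rw [hR'id _ hmem]
      funext i
      rw [Pi.add_apply, Pi.smul_apply, smul_eq_mul, hπ, add_sub_cancel]
    · show f j * v i + R' (π f) i ∈ A
      exact add_mem (mul_mem (hf j) (hvA i)) (hR'int _ (fun l => by
        rw [hπ]; exact sub_mem (hf l) (mul_mem (hf j) (hvA l))) i)
    · show σ (f j * v i + R' (π f) i) = σ (f j) * v i + R' (π fun l => σ (f l)) i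
      rw [map_add, map_mul, hvfix σ hσ, hR'eq σ hσ]
      refine congrArg _ (congrArg (fun F => R' F i) (funext fun l => ?_))
      show σ (π f l) = π (fun l => σ (f l)) l
      rw [hπ, hπ, map_sub, map_mul, hvfix σ hσ]

/-- An integral retraction onto the invariant functions gives a lattice on the quotient. -/
theorem CoordLat.exists_quotient {M : Type} [AddCommGroup M] (L : CoordLat A M) (K : AddSubgroup M)
    (R : (M → ℚb) →ₗ[ℚb] (M → ℚb)) (hmem : ∀ f x, ∀ k ∈ K, R f (x + k) = R f x)
    (hid : ∀ f : M → ℚb, (∀ x, ∀ k ∈ K, f (x + k) = f x) → R f = f)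
    (hint : ∀ f ∈ L.S, R f ∈ L.S) :
    ∃ L' : CoordLat A (M ⧸ K), ∀ f, f ∈ L'.S ↔ (fun x : M => f (x : M ⧸ K)) ∈ L.S := by
  let pull : (M ⧸ K → ℚb) →ₐ[A] (M → ℚb) :=
    { toFun := fun f x => f (x : M ⧸ K)
      map_one' := rfl
      map_mul' := fun _ _ => rfl
      map_zero' := rfl
      map_add' := fun _ _ => rfl
      commutes' := fun _ => rfl }
  let RR : (M × M → ℚb) →ₗ[ℚb] ((M ⧸ K) × (M ⧸ K) → ℚb) := LinearMap.pi fun z =>
    (LinearMap.proj (Quotient.out z.1)).comp (R.comp (LinearMap.pi fun x =>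
      (LinearMap.proj (Quotient.out z.2)).comp (R.comp (LinearMap.funLeft ℚb ℚb fun y => (x, y)))))
  have hRR : ∀ F z, RR F z =
      R (fun x => R (fun y => F (x, y)) (Quotient.out z.2)) (Quotient.out z.1) := fun F z => rfl
  have hzero : ∀ k ∈ K, (k : M ⧸ K) = 0 := fun k hk => (QuotientAddGroup.eq_zero_iff k).mpr hk
  have hdown : ∀ a ∈ L.S, pull (fun z => R a (Quotient.out z)) ∈ L.S := fun a ha => by
    have h : pull (fun z => R a (Quotient.out z)) = R a := funext fun x => by
      obtain ⟨k, hk⟩ := QuotientAddGroup.mk_out_eq_add K x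
      show R a (Quotient.out (x : M ⧸ K)) = R a x
      rw [hk]
      exact hmem a x k k.2
    rw [h]
    exact hint a ha
  refine ⟨{ S := L.S.comap pull, int := ?_, exists_scale := ?_, add := ?_ }, fun f => Iff.rfl⟩
  · intro f hf z
    obtain ⟨x, rfl⟩ := QuotientAddGroup.mk_surjective z
    exact L.int (pull f) hf x
  · intro f hf
    have hkey : RR (fun z : M × M => pull f (z.1 + z.2)) = fun z => f (z.1 + z.2) := funext fun z => by
      rw [hRR]
      have h1 : ∀ x, R (fun y => pull f (x + y)) = fun y => pull f (x + y) := fun x =>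
        hid _ fun y k hk => congrArg f (by
          simp only [QuotientAddGroup.mk_add, hzero k hk, add_zero])
      show R (fun x => R (fun y => pull f (x + y)) (Quotient.out z.2)) (Quotient.out z.1) = _
      simp only [h1]
      rw [hid (fun x => pull f (x + Quotient.out z.2)) fun x k hk => congrArg f (by
        simp only [QuotientAddGroup.mk_add, hzero k hk, add_zero])]
      exact congrArg f (by
        simp only [QuotientAddGroup.mk_add, QuotientAddGroup.out_eq'])
    rw [← hkey]
    have hF := L.add (pull f) hf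
    revert hF
    generalize (fun z : M × M => pull f (z.1 + z.2)) = F
    intro hF
    induction hF using Submodule.span_induction with
    | mem F hF =>
      obtain ⟨a, ha, b, hb, rfl⟩ := hF
      refine Submodule.subset_span ⟨fun z => R a (Quotient.out z), hdown a ha,
        fun z => R b (Quotient.out z), hdown b hb, funext fun z => ?_⟩
      rw [hRR]
      have h1 : ∀ x, R (fun y => a x * b y) = a x • R b := fun x => by rw [← map_smul]; rfl
      simp only [h1, Pi.smul_apply, smul_eq_mul]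
      rw [show (fun x => a x * R b (Quotient.out z.2)) = R b (Quotient.out z.2) • a from
        funext fun x => mul_comm _ _, map_smul, Pi.smul_apply, smul_eq_mul, mul_comm]
    | zero => rw [map_zero]; exact zero_mem _
    | add F G _ _ h h' => rw [map_add]; exact add_mem h h'
    | smul c F _ h =>
      rw [show c • F = (c : ℚb) • F from rfl, map_smul]
      exact Submodule.smul_mem _ c h
  · obtain ⟨δ, hδ, h⟩ := L.exists_scale
    exact ⟨δ, hδ, fun e he => h (pull e) fun x => he _⟩

namespace Chart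

variable {M : Type} [AddCommGroup M] [DistribMulAction GQ M] (X : Chart A M)

/-- The quotient lattice by a stable subgroup, with functions equivariant for the stabiliser. -/
theorem exists_quotient (K : AddSubgroup M) (Γ : Subgroup GQ)
    (hK : ∀ σ ∈ Γ, ∀ x ∈ K, σ • x ∈ K) :
    ∃ L : CoordLat A (M ⧸ K), (∀ f ∈ L.S, (fun x : M => f (x : M ⧸ K)) ∈ X.lat.S) ∧
      ∃ (ι : Type) (_ : Fintype ι) (g : ι → M ⧸ K → ℚb), (∀ i, g i ∈ L.S) ∧
        (∀ i, ∀ σ ∈ Γ, ∀ x : M, σ (g i x) = g i (σ • x : M)) ∧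
        ∀ f ∈ L.S, f ∈ Submodule.span A (Set.range g) := by
  classical
  let inv : Submodule ℚb (M → ℚb) :=
    { carrier := {f | ∀ x, ∀ k ∈ K, f (x + k) = f x}
      add_mem' := fun {a b} ha hb x k hk => by rw [Pi.add_apply, Pi.add_apply, ha x k hk, hb x k hk]
      zero_mem' := fun _ _ _ => rfl
      smul_mem' := fun c a ha x k hk => by rw [Pi.smul_apply, Pi.smul_apply, ha x k hk] }
  let V : Submodule ℚb (X.ι → ℚb) := inv.comap X.B.equivFun.symm.toLinearMap
  have hev : ∀ (a : X.ι → ℚb) (x : M), X.B.equivFun.symm a x = ∑ i, a i * X.B i x := fun a x => by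
    rw [X.B.equivFun_symm_apply, Finset.sum_apply]
    rfl
  have hconj : ∀ (σ : GQ) (a : X.ι → ℚb) (x : M),
      σ (X.B.equivFun.symm a x) = X.B.equivFun.symm (fun i => σ (a i)) (σ • x) := fun σ a x => by
    rw [hev, hev, map_sum]
    exact Finset.sum_congr rfl fun i _ => by rw [map_mul, X.equi]
  obtain ⟨R₀, hmem₀, hid₀, hint₀, heq₀⟩ := exists_integral_proj (A := A) Γ _ Finset.univ le_rfl V
    (fun f _ i hi => absurd (Finset.mem_univ i) hi) (fun σ hσ a ha x k hk => by
      show X.B.equivFun.symm (fun i => σ (a i)) (x + k) = X.B.equivFun.symm (fun i => σ (a i)) x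
      have h1 := congrArg σ (ha (σ⁻¹ • x) (σ⁻¹ • k) (hK σ⁻¹ (inv_mem hσ) k hk))
      change σ (X.B.equivFun.symm a (σ⁻¹ • x + σ⁻¹ • k)) = σ (X.B.equivFun.symm a (σ⁻¹ • x)) at h1
      rwa [hconj, hconj, smul_add, smul_inv_smul, smul_inv_smul] at h1)
  let R : (M → ℚb) →ₗ[ℚb] (M → ℚb) :=
    (X.B.equivFun.symm.toLinearMap.comp R₀).comp X.B.equivFun.toLinearMap
  have hRmem : ∀ f, R f ∈ inv := fun f => hmem₀ _
  have hRid : ∀ f ∈ inv, R f = f := fun f hf => by
    show X.B.equivFun.symm (R₀ (X.B.equivFun f)) = f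
    rw [hid₀ _ (by show X.B.equivFun.symm (X.B.equivFun f) ∈ inv; rwa [LinearEquiv.symm_apply_apply]),
      LinearEquiv.symm_apply_apply]
  have hRint : ∀ f ∈ X.lat.S, R f ∈ X.lat.S := fun f hf => by
    obtain ⟨a, ha, rfl⟩ := X.exists_coeffs hf
    show X.B.equivFun.symm (R₀ (X.B.equivFun (∑ i, a i • X.B i))) ∈ X.lat.S
    rw [← X.B.equivFun_symm_apply, LinearEquiv.apply_symm_apply, X.B.equivFun_symm_apply]
    exact sum_mem fun i _ =>
      X.lat.S.smul_mem (X.mem i) (⟨R₀ a i, hint₀ a ha i⟩ : A)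
  let down : (M → ℚb) → (M ⧸ K → ℚb) := fun f z => f (Quotient.out z)
  have hinv : ∀ f : M ⧸ K → ℚb, (fun x : M => f (x : M ⧸ K)) ∈ inv := fun f x k hk => congrArg f (by
    rw [QuotientAddGroup.mk_add, (QuotientAddGroup.eq_zero_iff k).mpr hk, add_zero])
  have hpd : ∀ f ∈ inv, (fun x : M => down f (x : M ⧸ K)) = f := fun f hf => funext fun x => by
    obtain ⟨k, hk⟩ := QuotientAddGroup.mk_out_eq_add K x
    show f (Quotient.out (x : M ⧸ K)) = f x
    rw [hk]
    exact hf x k k.2
  have hdp : ∀ f : M ⧸ K → ℚb, down (fun x : M => f (x : M ⧸ K)) = f := fun f =>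
    funext fun z => congrArg f (QuotientAddGroup.out_eq' z)
  obtain ⟨L, hL⟩ := X.lat.exists_quotient K R hRmem hRid hRint
  refine ⟨L, fun f hf => (hL f).mp hf, X.ι, X.fin, fun i => down (R (X.B i)), fun i => ?_,
    fun i σ hσ x => ?_, fun f hf => ?_⟩
  · rw [hL, hpd _ (hRmem _)]
    exact hRint _ (X.mem i)
  · have e := fun y : M => congrFun (hpd _ (hRmem (X.B i))) y
    show σ (down (R (X.B i)) x) = down (R (X.B i)) (σ • x : M)
    rw [e, e]
    show σ (X.B.equivFun.symm (R₀ (X.B.equivFun (X.B i))) x) = _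
    rw [hconj]
    show X.B.equivFun.symm _ (σ • x) = X.B.equivFun.symm (R₀ (X.B.equivFun (X.B i))) (σ • x)
    refine congrArg (fun a => X.B.equivFun.symm a (σ • x)) (funext fun j => ?_)
    rw [heq₀ σ hσ]
    refine congrArg (fun a => R₀ a j) (funext fun l => ?_)
    rw [X.B.equivFun_self]
    split_ifs <;> simp
  · obtain ⟨a, ha, hfa⟩ := X.exists_coeffs ((hL f).mp hf)
    have h1 : f = ∑ i, (⟨a i, ha i⟩ : A) • down (R (X.B i)) := by
      conv_lhs => rw [← hdp f, ← hRid _ (hinv f), hfa, map_sum]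
      funext z
      simp only [down, map_smul, Finset.sum_apply]
      rfl
    rw [h1]
    exact sum_mem fun i _ => Submodule.smul_mem _ _ (Submodule.subset_span ⟨i, rfl⟩)

end Chart

end Fermat.Agent.FlatBound
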