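/-
Points of a flat module moved into a stable subgroup by inertia, in the part generated by inertia.
-/
import Fermat.Agent.FlatBound.Local.Quot
import Fermat.Agent.FlatBound.Kummer.Res

set_option autoImplicit false
set_option linter.style.haveILetI false
set_option linter.unusedSectionVars false

noncomputable section

namespace Fermat.Agent.FlatBound

open AddMonoidAlgebra CoordLat
open Fermat.Agent.Galois (GQ)
open Fermat.Agent.NewVec Fermat.Agent.GalRep.InertiaBase

local notation "ℚb" => AlgebraicClosure ℚ

variable {A : ValuationSubring (AlgebraicClosure ℚ)}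

theorem CoordLat.translate_mem {M : Type} [AddCommGroup M] (L : CoordLat A M) {f : M → ℚb}
    (hf : f ∈ L.S) (a : M) : (fun z => f (z + a)) ∈ L.S := by
  suffices key : ∀ F ∈ Submodule.span A (boxes (L.S : Set (M → ℚb)) (L.S : Set (M → ℚb))),
      (fun z => F (z, a)) ∈ L.S from key _ (L.add f hf)
  intro F hF
  induction hF using Submodule.span_induction with
  | mem F hF =>
    obtain ⟨u, hu, w, hw, rfl⟩ := hF
    exact L.S.mul_mem hu (L.algebraMap_mem (L.int w hw a))
  | zero => exact L.S.zero_mem
  | add F G _ _ h h' => exact L.S.add_mem h h'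
  | smul c F _ h => exact L.S.smul_mem h c

namespace Chart

variable {M : Type} [AddCommGroup M] [DistribMulAction GQ M] [Finite M] (X : Chart A M)
variable {p : ℕ} [Fact p.Prime] (hA : A.LiesOverPrime p)

include X hA in
/-- An element of the subgroup generated by the displacements of inertia which inertia moves into a
stable subgroup belongs to that subgroup. -/
theorem mem_of_closure (hp3 : 3 ≤ p) (hM : ∀ x : M, p • x = 0) (K : AddSubgroup M)
    (hK : ∀ σ ∈ A.inertiaSubgroupIn ℚ, ∀ x ∈ K, σ • x ∈ K) {x : M}
    (hx : x ∈ AddSubgroup.closure {d | ∃ σ ∈ A.inertiaSubgroupIn ℚ, ∃ y : M, σ • y - y = d})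
    (hfix : ∀ σ ∈ A.inertiaSubgroupIn ℚ, σ • x - x ∈ K) : x ∈ K := by
  classical
  obtain ⟨L, -, ι, hι, g, hg, hequi, hspan⟩ := X.exists_quotient K (A.inertiaSubgroupIn ℚ) hK
  have hle : ∀ i z, A.valuation (g i z) ≤ 1 := fun i z =>
    (A.valuation_le_one_iff _).mpr (L.int _ (hg i) z)
  -- congruences to the origin
  have hC : ∀ f ∈ L.S, A.valuation (f (x : M ⧸ K) - f ((0 : M) : M ⧸ K)) < 1 := by
    suffices key : ∀ y ∈ AddSubgroup.closure
        {d | ∃ σ ∈ A.inertiaSubgroupIn ℚ, ∃ y : M, σ • y - y = d},
        ∀ f ∈ L.S, A.valuation (f (y : M ⧸ K) - f ((0 : M) : M ⧸ K)) < 1 from key x hx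
    intro y hy
    induction hy using AddSubgroup.closure_induction with
    | mem d hd =>
      obtain ⟨σ, hσ, y, rfl⟩ := hd
      intro f hf
      have key : ∀ F ∈ Submodule.span A (Set.range g),
          A.valuation (F ((σ • y : M) : M ⧸ K) - F (y : M ⧸ K)) < 1 := by
        intro F hF
        induction hF using Submodule.span_induction with
        | mem F hF =>
          obtain ⟨i, rfl⟩ := hF
          rw [← hequi i σ hσ y, ← res_eq_res_iff _ (hle i _)]
          · exact res_inertia hσ (hle i _)
          · rw [hequi i σ hσ y]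
            exact hle i _
        | zero => simp
        | add F G _ _ h h' =>
          rw [Pi.add_apply, Pi.add_apply, add_sub_add_comm]
          exact A.valuation.map_add_lt h h'
        | smul c F _ h =>
          rw [Pi.smul_apply, Pi.smul_apply, ← smul_sub]
          change A.valuation ((c : ℚb) * _) < 1
          rw [map_mul]
          exact (mul_le_of_le_one_left' ((A.valuation_le_one_iff _).mpr c.2)).trans_lt h
      have := key _ (hspan _ (L.translate_mem hf (-(y : M ⧸ K))))
      simpa [sub_eq_add_neg] using this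
    | zero => intro f _; simp
    | add a b _ _ ha hb =>
      intro f hf
      have h1 := ha _ (L.translate_mem hf (b : M ⧸ K))
      simp only [QuotientAddGroup.mk_zero, zero_add] at h1
      have h2 := A.valuation.map_add_lt h1 (hb f hf)
      rwa [sub_add_sub_cancel, ← QuotientAddGroup.mk_add] at h2
    | neg a _ ha =>
      intro f hf
      have h1 := ha _ (L.translate_mem hf ((-a : M) : M ⧸ K))
      simp only [QuotientAddGroup.mk_zero, QuotientAddGroup.mk_neg, zero_add, add_neg_cancel] at h1
      rwa [A.valuation.map_sub_swap, QuotientAddGroup.mk_neg, QuotientAddGroup.mk_zero]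
  -- fixed congruent values are `p`-close
  have hclose : ∀ i, A.valuation (g i (x : M ⧸ K) - g i ((0 : M) : M ⧸ K)) ≤
      A.valuation (p : ℚb) := fun i => by
    set d := g i (x : M ⧸ K) - g i ((0 : M) : M ⧸ K) with hd
    rcases eq_or_ne d 0 with h0 | h0
    · rw [h0, map_zero]; exact zero_le
    have hdfix : ∀ σ ∈ A.inertiaSubgroupIn ℚ, σ d = d := fun σ hσ => by
      rw [hd, map_sub, hequi i σ hσ, hequi i σ hσ, smul_zero,
        (QuotientAddGroup.eq_iff_sub_mem).mpr (hfix σ hσ)]
    obtain ⟨k, hk⟩ := exists_val_eq_zpow_of_fixed (Fact.out : p.Prime) hA hdfix h0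
    have hlt : A.valuation (p : ℚb) ^ k < 1 := hk ▸ hC _ (hg i)
    have hk1 : 1 ≤ k := by
      by_contra hcon
      exact absurd hlt (not_lt.mpr (one_le_zpow_of_nonpos₀ (zero_lt_iff.mpr val_p_ne_zero)
        (val_p_lt_one hA).le (by omega)))
    rw [hk]
    calc A.valuation (p : ℚb) ^ k ≤ A.valuation (p : ℚb) ^ (1 : ℤ) :=
        zpow_le_zpow_right_of_le_one₀ (zero_lt_iff.mpr val_p_ne_zero) (val_p_lt_one hA).le hk1
      _ = _ := zpow_one _
  have hball : L.InBall (A.valuation (p : ℚb))
      (single (x : M ⧸ K) 1 - single ((0 : M) : M ⧸ K) 1) := fun f hf => by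
    rw [map_sub, pairing_single, pairing_single, one_mul, one_mul]
    have hf' := hspan f hf
    clear hf
    induction hf' using Submodule.span_induction with
    | mem F hF => obtain ⟨i, rfl⟩ := hF; exact hclose i
    | zero => simp
    | add F G _ _ h h' =>
      rw [Pi.add_apply, Pi.add_apply, add_sub_add_comm]
      exact (A.valuation.map_add _ _).trans (max_le h h')
    | smul c F _ h =>
      rw [Pi.smul_apply, Pi.smul_apply, ← smul_sub]
      change A.valuation ((c : ℚb) * _) ≤ _
      rw [map_mul]
      exact (mul_le_of_le_one_left' ((A.valuation_le_one_iff _).mpr c.2)).trans h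
  have hsmall : Small A p (A.valuation (p : ℚb)) :=
    pow_lt_self_of_lt_one₀ (zero_lt_iff.mpr val_p_ne_zero) (val_p_lt_one hA) (by omega)
  haveI : Finite (M ⧸ K) := Finite.of_surjective _ QuotientAddGroup.mk_surjective
  have h := point_unique hA (fun z => by
    obtain ⟨z, rfl⟩ := QuotientAddGroup.mk_surjective z
    rw [← QuotientAddGroup.mk_nsmul, hM, QuotientAddGroup.mk_zero]) hsmall hball
  exact (QuotientAddGroup.eq_zero_iff x).mp (h.trans (QuotientAddGroup.mk_zero K))

end Chart

end Fermat.Agent.FlatBound
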